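import Fermat.Agent.SiegelKlingen.ValuesTwo
import Mathlib.Analysis.SpecialFunctions.Stirling
import Mathlib.Analysis.Complex.ExponentialBounds
import Mathlib.Analysis.SpecificLimits.Normed
import Mathlib.NumberTheory.NumberField.Discriminant.Basic

/-!
# The zeta value at a negative odd integer as a lower bound

`ζ_K (1 - 2t) = (-1)^(t n) c_t^n √|d|^(4t - 1) ζ_K (2t)` with `c_t = 2 (2t-1)! / (2π)^(2t)`, and by
Minkowski's bound the right hand side tends to infinity with the degree.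
-/

set_option autoImplicit false
set_option linter.unusedSectionVars false
set_option linter.style.haveILetI false

noncomputable section

open NumberField InfinitePlace Module Filter
open scoped Real nonZeroDivisors Topology Nat

namespace FA.ZetaVolume

open FA.SiegelKlingen

/-- The factor of one place. -/
def placeFactor (t : ℕ) : ℝ := 2 * ((2 * t - 1)! : ℕ) / (2 * π) ^ (2 * t)

theorem placeFactor_pos (t : ℕ) : 0 < placeFactor t := by
  rw [placeFactor]
  positivity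

theorem one_lt_factor_exp {t : ℕ} (ht : 1 ≤ t) :
    1 < placeFactor t * Real.exp 1 ^ (4 * t - 1) := by
  have hπ0 := Real.pi_pos
  have hπ1 : π < 3.1416 := Real.pi_lt_d4
  have he : 2.7182 < Real.exp 1 := lt_trans (by norm_num) Real.exp_one_gt_d9
  induction t, ht using Nat.le_induction with
  | base =>
    rw [placeFactor, show 2 * 1 - 1 = 1 from rfl, show 4 * 1 - 1 = 3 from rfl, Nat.factorial_one,
      div_mul_eq_mul_div, one_lt_div (by positivity)]
    push_cast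
    have h3 : (2.7182 : ℝ) ^ 3 ≤ Real.exp 1 ^ 3 := pow_le_pow_left₀ (by norm_num) he.le 3
    nlinarith [mul_lt_mul'' hπ1 hπ1 hπ0.le hπ0.le]
  | succ t ht ih =>
    obtain ⟨j, hj⟩ : ∃ j, t = j + 1 := ⟨t - 1, by omega⟩
    subst hj
    have e : placeFactor (j + 1 + 1) * Real.exp 1 ^ (4 * (j + 1 + 1) - 1) =
        placeFactor (j + 1) * Real.exp 1 ^ (4 * (j + 1) - 1) *
          ((2 * (j : ℝ) + 3) * (2 * j + 2) * Real.exp 1 ^ 4 / (2 * π) ^ 2) := by
      rw [placeFactor, placeFactor, show 2 * (j + 1 + 1) - 1 = 2 * j + 1 + 1 + 1 by omega,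
        show 2 * (j + 1) - 1 = 2 * j + 1 by omega,
        show 4 * (j + 1 + 1) - 1 = 4 * j + 3 + 4 by omega,
        show 4 * (j + 1) - 1 = 4 * j + 3 by omega, Nat.factorial_succ (2 * j + 1 + 1),
        Nat.factorial_succ (2 * j + 1)]
      push_cast
      field_simp
      ring
    rw [e]
    refine one_lt_mul_of_lt_of_le ih ((one_le_div (by positivity)).2 ?_)
    have h4 : (2.7182 : ℝ) ^ 4 ≤ Real.exp 1 ^ 4 := pow_le_pow_left₀ (by norm_num) he.le 4
    have hj0 : (0 : ℝ) ≤ (j : ℝ) := j.cast_nonneg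
    have h6 : (6 : ℝ) ≤ (2 * (j : ℝ) + 3) * (2 * j + 2) := by nlinarith
    nlinarith [mul_lt_mul'' hπ1 hπ1 hπ0.le hπ0.le,
      mul_le_mul h6 h4 (by positivity) (by positivity)]

theorem tendsto_placeFactor : Tendsto placeFactor atTop atTop := by
  have h := (FloorSemiring.tendsto_pow_div_factorial_atTop (2 * π)).comp
    (tendsto_atTop_mono (fun t => (by omega : t ≤ 2 * (t + 1) - 1)) tendsto_id)
  have hpos : ∀ᶠ t : ℕ in atTop,
      0 < ((fun n => (2 * π) ^ n / (n ! : ℝ)) ∘ fun t => 2 * (t + 1) - 1) t :=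
    Eventually.of_forall fun t => by simp only [Function.comp_apply]; positivity
  have h2 := ((tendsto_nhdsWithin_iff.2 ⟨h, hpos⟩).inv_tendsto_nhdsGT_zero).const_mul_atTop
    (show (0 : ℝ) < 2 / (2 * π) by positivity)
  refine (tendsto_add_atTop_iff_nat 1).1 (h2.congr fun t => ?_)
  simp only [Pi.inv_apply, Function.comp_apply, placeFactor]
  obtain ⟨m, hm, hm'⟩ : ∃ m, 2 * (t + 1) - 1 = m ∧ 2 * (t + 1) = m + 1 :=
    ⟨2 * t + 1, by omega, by omega⟩
  rw [hm, hm', pow_succ]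
  field_simp

/-- Stirling's upper bound. -/
theorem factorial_le {n : ℕ} (hn : n ≠ 0) :
    (n ! : ℝ) ≤ Real.exp 1 * √(n : ℝ) * ((n : ℝ) / Real.exp 1) ^ n := by
  obtain ⟨j, rfl⟩ : ∃ j, n = j + 1 := ⟨n - 1, by omega⟩
  have h : Stirling.stirlingSeq (j + 1) ≤ Stirling.stirlingSeq 1 :=
    Stirling.stirlingSeq'_antitone (Nat.zero_le j)
  rw [Stirling.stirlingSeq_one, Stirling.stirlingSeq, div_le_iff₀ (by positivity),
    Real.sqrt_mul zero_le_two] at h
  refine h.trans (le_of_eq ?_)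
  have h2 : (√2 : ℝ) ≠ 0 := by positivity
  field_simp

variable {K : Type*} [Field K] [NumberField K] [IsTotallyReal K]

theorem one_le_rootDiscr : 1 ≤ SiegelKlingen.rootDiscr K := by
  rw [SiegelKlingen.rootDiscr, Real.one_le_sqrt, ← Int.cast_abs]
  exact_mod_cast Int.one_le_abs (discr_ne_zero K)

/-- **Minkowski's bound.** -/
theorem minkowski_rootDiscr : Real.exp 1 ^ finrank ℚ K /
    (Real.exp 1 * (finrank ℚ K : ℝ)) ≤ SiegelKlingen.rootDiscr K := by
  have h := abs_discr_ge' K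
  rw [IsTotallyReal.nrComplexPlaces_eq_zero, mul_zero, pow_zero, one_mul] at h
  obtain ⟨n, hn⟩ : ∃ n, n = finrank ℚ K := ⟨_, rfl⟩
  have hn0 : n ≠ 0 := hn ▸ finrank_pos.ne'
  rw [← hn] at h ⊢
  have h1 : (n : ℝ) ^ n / (n ! : ℝ) ≤ SiegelKlingen.rootDiscr K := by
    rw [SiegelKlingen.rootDiscr, Real.le_sqrt (by positivity) (abs_nonneg _), div_pow, ← pow_mul,
      mul_comm n 2]
    exact_mod_cast h
  refine le_trans ?_ h1
  have hn1 : √(n : ℝ) ≤ n := by
    rw [Real.sqrt_le_left n.cast_nonneg]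
    nlinarith [(Nat.one_le_cast.2 (Nat.pos_of_ne_zero hn0) : (1 : ℝ) ≤ n)]
  have h2 : (n ! : ℝ) ≤ Real.exp 1 * n * ((n : ℝ) / Real.exp 1) ^ n :=
    (factorial_le hn0).trans (by gcongr)
  rw [div_le_div_iff₀ (by positivity) (by positivity)]
  refine (mul_le_mul_of_nonneg_left h2 (by positivity)).trans (le_of_eq ?_)
  rw [div_pow]
  field_simp

/-- The values at even integers are real and at least `1`. -/
theorem exists_real_zeta {k : ℕ} (hk : 2 ≤ k) :
    ∃ z : ℝ, 1 ≤ z ∧ dedekindZeta K (k : ℂ) = (z : ℂ) := by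
  have hs : 1 < (k : ℂ).re := by
    rw [Complex.natCast_re]
    exact_mod_cast (by omega : 1 < k)
  have hreal : ∀ I : (Ideal (𝓞 K))⁰, FA.AbelianZeta.normPow (k : ℂ) I =
      (((((Ideal.absNorm (I : Ideal (𝓞 K)) : ℕ) : ℝ) ^ k)⁻¹ : ℝ) : ℂ) := fun I => by
    show ((Ideal.absNorm (I : Ideal (𝓞 K)) : ℕ) : ℂ) ^ (-(k : ℂ)) = _
    rw [Complex.cpow_neg, Complex.cpow_natCast]
    push_cast
    rfl
  have hsum : Summable fun I : (Ideal (𝓞 K))⁰ =>
      ((((Ideal.absNorm (I : Ideal (𝓞 K)) : ℕ) : ℝ) ^ k)⁻¹) :=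
    Complex.summable_ofReal.1 ((FA.AbelianZeta.summable_norm_normPow hs).of_norm.congr hreal)
  refine ⟨_, le_trans (le_of_eq ?_) (hsum.le_tsum 1 fun I _ => by positivity), ?_⟩
  · simp
  · rw [FA.AbelianZeta.dedekindZeta_eq_tsum hs, tsum_congr hreal, Complex.ofReal_tsum]

/-- **The value at `1 - 2 t`.** -/
theorem extension_formula {t : ℕ} (ht : 1 ≤ t) :
    HeckeFE.extension K (1 - ((2 * t : ℕ) : ℂ)) = (-1 : ℂ) ^ (t * finrank ℚ K) *
      ((placeFactor t ^ finrank ℚ K * SiegelKlingen.rootDiscr K ^ (4 * t - 1) : ℝ) : ℂ) *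
        dedekindZeta K ((2 * t : ℕ) : ℂ) := by
  obtain ⟨r, -, hr⟩ := dedekindZeta_mem (K := K) (even_two_mul t) (by omega)
    (classZ_mem_even (even_two_mul t) (by omega))
  rw [extension_eq ht hr, hr]
  obtain ⟨n, hn⟩ : ∃ n, n = finrank ℚ K := ⟨_, rfl⟩
  obtain ⟨R, hR⟩ : ∃ R : ℝ, R = SiegelKlingen.rootDiscr K := ⟨_, rfl⟩
  have hd : (((discr K).natAbs : ℕ) : ℂ) = (R : ℂ) ^ 2 := by
    rw [hR, SiegelKlingen.rootDiscr, ← Complex.ofReal_pow, Real.sq_sqrt (abs_nonneg _),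
      Nat.cast_natAbs, ← Int.cast_abs, Complex.ofReal_intCast]
  rw [← hn, ← hR, placeFactor]
  have hπ : (π : ℂ) ≠ 0 := Complex.ofReal_ne_zero.2 Real.pi_ne_zero
  push_cast
  rw [hd, ← pow_mul, show 2 * (2 * t) = (4 * t - 1) + 1 by omega, pow_succ]
  rw [pow_mul (-1 : ℂ) t n, pow_mul (π : ℂ) (2 * t) n, mul_pow (2 : ℂ) (π : ℂ),
    ← div_div, div_pow _ ((π : ℂ) ^ (2 * t)), mul_div_right_comm _ ((-1 : ℂ) ^ t), mul_pow]
  field_simp

/-- **The lower bound.** -/
theorem norm_extension_ge {t : ℕ} (ht : 1 ≤ t) :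
    placeFactor t ^ finrank ℚ K * SiegelKlingen.rootDiscr K ^ (4 * t - 1) ≤
      ‖HeckeFE.extension K (1 - ((2 * t : ℕ) : ℂ))‖ := by
  obtain ⟨z, hz1, hz⟩ := exists_real_zeta (K := K) (by omega : 2 ≤ 2 * t)
  have hR := zero_le_one.trans (one_le_rootDiscr (K := K))
  rw [extension_formula ht, hz, norm_mul, norm_mul, norm_pow, norm_neg, norm_one, one_pow,
    one_mul, Complex.norm_real, Complex.norm_real,
    Real.norm_of_nonneg (mul_nonneg (pow_nonneg (placeFactor_pos t).le _) (pow_nonneg hR _)),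
    Real.norm_of_nonneg (zero_le_one.trans hz1)]
  exact le_mul_of_one_le_right (mul_nonneg (pow_nonneg (placeFactor_pos t).le _)
    (pow_nonneg hR _)) hz1

/-- **The bound in the degree alone.** -/
theorem norm_extension_ge_degree {t : ℕ} (ht : 1 ≤ t) :
    (placeFactor t * Real.exp 1 ^ (4 * t - 1)) ^ finrank ℚ K /
        (Real.exp 1 * (finrank ℚ K : ℝ)) ^ (4 * t - 1) ≤
      ‖HeckeFE.extension K (1 - ((2 * t : ℕ) : ℂ))‖ := by
  refine le_trans ?_ (norm_extension_ge ht)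
  rw [mul_pow, mul_div_assoc, pow_right_comm, ← div_pow]
  exact mul_le_mul_of_nonneg_left (pow_le_pow_left₀ (by positivity) minkowski_rootDiscr _)
    (pow_nonneg (placeFactor_pos t).le _)

omit [IsTotallyReal K] in
/-- For each `t` large degrees give large values. -/
theorem exists_degree_bound {t : ℕ} (ht : 1 ≤ t) (B : ℝ) : ∃ N : ℕ, ∀ n : ℕ, N ≤ n →
    B < (placeFactor t * Real.exp 1 ^ (4 * t - 1)) ^ n /
      (Real.exp 1 * (n : ℝ)) ^ (4 * t - 1) := by
  obtain ⟨β, hβ⟩ : ∃ β, β = placeFactor t * Real.exp 1 ^ (4 * t - 1) := ⟨_, rfl⟩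
  have h1 : 1 < β := hβ ▸ one_lt_factor_exp ht
  have h := (tendsto_pow_const_div_const_pow_of_one_lt (4 * t - 1) h1).const_mul
    (Real.exp 1 ^ (4 * t - 1) * (|B| + 1))
  rw [mul_zero] at h
  obtain ⟨N, hN⟩ := eventually_atTop.1 (h.eventually (gt_mem_nhds zero_lt_one))
  refine ⟨max N 1, fun n hn => ?_⟩
  have hn1 : (0 : ℝ) < n := Nat.cast_pos.2 (le_of_max_le_right hn)
  have h2 := hN n (le_of_max_le_left hn)
  rw [← mul_div_assoc, div_lt_one (pow_pos (zero_lt_one.trans h1) n)] at h2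
  rw [← hβ, lt_div_iff₀ (by positivity), mul_pow]
  have hp : (0 : ℝ) < Real.exp 1 ^ (4 * t - 1) * (n : ℝ) ^ (4 * t - 1) := by positivity
  nlinarith [le_abs_self B, mul_le_mul_of_nonneg_right (le_abs_self B) hp.le]

end FA.ZetaVolume

end
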