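import Fermat.Agent.ZetaVolume.Bound

/-!
# Finitely many totally real fields with bounded zeta values

The degree is bounded by Minkowski's bound, then the discriminant, and Hermite's theorem applies.
-/

set_option autoImplicit false
set_option linter.style.haveILetI false

noncomputable section

open NumberField InfinitePlace Module Filter
open scoped Real

namespace FA.ZetaVolume

/-- Fields with bounded value at `1 - 2 t`. -/
theorem finite_fields {t : ℕ} (ht : 1 ≤ t) (B : ℝ) :
    {F : IntermediateField ℚ ℂ | ∃ _ : NumberField F, IsTotallyReal F ∧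
      ‖HeckeFE.extension F (1 - ((2 * t : ℕ) : ℂ))‖ ≤ B}.Finite := by
  obtain ⟨N, hN⟩ := exists_degree_bound ht B
  obtain ⟨c, hc⟩ : ∃ c : ℝ, c = min 1 (placeFactor t) := ⟨_, rfl⟩
  have hc0 : 0 < c := hc ▸ lt_min one_pos (placeFactor_pos t)
  obtain ⟨D, hD⟩ := exists_nat_ge ((|B| / c ^ N) ^ 2)
  refine ((finite_of_discr_bdd ℂ (N := D)).image Subtype.val).subset ?_
  rintro F ⟨hF, hreal, hB⟩
  have := hreal
  refine ⟨⟨F, hF.to_finiteDimensional⟩, ?_, rfl⟩
  show |discr F| ≤ (D : ℤ)
  have hn : finrank ℚ F < N := by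
    by_contra hge
    exact (((hN _ (not_lt.1 hge)).trans_le (norm_extension_ge_degree ht)).trans_le hB).false
  have hR := one_le_rootDiscr (K := F)
  have h2 := (norm_extension_ge (K := F) ht).trans hB
  have h3 : c ^ N * SiegelKlingen.rootDiscr F ≤ |B| := by
    refine le_trans ?_ (h2.trans (le_abs_self B))
    refine mul_le_mul ?_ (le_self_pow₀ hR (by omega)) (zero_le_one.trans hR)
      (pow_nonneg (placeFactor_pos t).le _)
    exact (pow_le_pow_of_le_one hc0.le (hc ▸ min_le_left _ _) hn.le).trans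
      (pow_le_pow_left₀ hc0.le (hc ▸ min_le_right _ _) _)
  rw [mul_comm, ← le_div_iff₀ (pow_pos hc0 N)] at h3
  have h4 := (pow_le_pow_left₀ (zero_le_one.trans hR) h3 2).trans hD
  rw [SiegelKlingen.rootDiscr, Real.sq_sqrt (abs_nonneg _), ← Int.cast_abs] at h4
  exact_mod_cast h4

/-- Beyond some `t` all values are large. -/
theorem exists_index_bound (B : ℝ) : ∃ T : ℕ, ∀ t : ℕ, T ≤ t → ∀ (F : Type) [Field F]
    [NumberField F] [IsTotallyReal F],
      B < ‖HeckeFE.extension F (1 - ((2 * t : ℕ) : ℂ))‖ := by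
  obtain ⟨T, hT⟩ := eventually_atTop.1 (tendsto_placeFactor.eventually_gt_atTop (max 1 B))
  refine ⟨max T 1, fun t ht F _ _ _ => ?_⟩
  have h := hT t (le_of_max_le_left ht)
  refine lt_of_lt_of_le ?_ (norm_extension_ge (le_of_max_le_right ht))
  have h1 : (1 : ℝ) ≤ placeFactor t := ((le_max_left _ _).trans_lt h).le
  calc B < placeFactor t := (le_max_right _ _).trans_lt h
    _ ≤ placeFactor t ^ finrank ℚ F := le_self_pow₀ h1 finrank_pos.ne'
    _ ≤ _ := le_mul_of_one_le_right (pow_nonneg (placeFactor_pos t).le _)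
        (one_le_pow₀ one_le_rootDiscr)

/-- Pairs of a field and an index with bounded value. -/
theorem finite_pairs (B : ℝ) :
    {p : IntermediateField ℚ ℂ × ℕ | ∃ _ : NumberField p.1, IsTotallyReal p.1 ∧
      ‖HeckeFE.extension p.1 (1 - ((2 * (p.2 + 1) : ℕ) : ℂ))‖ ≤ B}.Finite := by
  obtain ⟨T, hT⟩ := exists_index_bound B
  refine ((Set.finite_Iio T).biUnion fun j _ =>
    ((finite_fields (t := j + 1) (by omega) B).image fun F => (F, j))).subset ?_
  rintro ⟨F, j⟩ ⟨hF, hreal, hB⟩
  have := hreal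
  refine Set.mem_biUnion (x := j) ?_ ⟨F, ⟨hF, hreal, hB⟩, rfl⟩
  show j < T
  by_contra hge
  exact ((hT (j + 1) (by omega) F).trans_le hB).false

end FA.ZetaVolume

end
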